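/-
helper53 (P-CFT / TATE-LES, row 481): a short exact sequence of `G`-modules whose middle term is
cohomologically trivial induces isomorphisms `Ĥ^q(S, X₃) ≅ Ĥ^{q+1}(S, X₁)` for every subgroup `S`.
-/
import Fermat.Agent.H24.Tate.Interfaces

set_option autoImplicit false

noncomputable section

open CategoryTheory

namespace Fermat.Agent.H53

/-- The connecting homomorphism of a short exact sequence is an isomorphism as soon as the two
neighbouring Tate cohomology groups of the middle term vanish. -/
theorem isIso_tate_delta {G : Type} [Group G] [Fintype G] {Y : ShortComplex (Rep ℤ G)}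
    (hY : Y.ShortExact) (q : ℤ)
    (h0 : Limits.IsZero (tateCohomology Y.X₂ q))
    (h1 : Limits.IsZero (tateCohomology Y.X₂ (q + 1))) :
    IsIso (TateCohomology.δ hY q) := by
  have hmono : Mono (TateCohomology.δ hY q) :=
    (TateCohomology.exact₃ hY q).mono_g (h0.eq_of_src _ _)
  have hepi : Epi (TateCohomology.δ hY q) :=
    (TateCohomology.exact₁ hY q).epi_f (h1.eq_of_tgt _ _)
  exact isIso_of_mono_of_epi _

/-- **T-LES** (row 481). -/
theorem shiftIsoStatement : Fermat.Agent.H24.ShiftIsoStatement := by
  intro G _ _ X hX hT S _ q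
  have hY : (X.map (Rep.resFunctor S.subtype)).ShortExact :=
    (Rep.shortExact_res S.subtype).mpr hX
  have h0 : Limits.IsZero (tateCohomology (X.map (Rep.resFunctor S.subtype)).X₂ q) := hT q S
  have h1 : Limits.IsZero (tateCohomology (X.map (Rep.resFunctor S.subtype)).X₂ (q + 1)) :=
    hT (q + 1) S
  exact ⟨@asIso _ _ _ _ (TateCohomology.δ hY q) (isIso_tate_delta hY q h0 h1)⟩

end Fermat.Agent.H53

end
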